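/-
helper84: every place of a function field of one variable over an algebraically closed
constant field has degree one (part (a) of GEN-1 of P-GENUS / S24).
Direct valuation argument, no Dedekind theory.
-/
import Mathlib
import Fermat.Prelude.Def_AlgebraicCurve_DivisorClassGroup

set_option autoImplicit false

namespace Fermat.Agent.H84

open AlgebraicCurve IntermediateField Polynomial

section Relation

variable {K F : Type} [Field K] [Field F] [Algebra K F]

open scoped IntermediateField.algebraAdjoinAdjoin in
/-- If `F` is finite over `K(y)`, then `F` is algebraic over `K[t]` for every transcendental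
`t`. -/
theorem isAlgebraic_adjoin_singleton_of_finite (y : F) (hfin : FiniteDimensional K⟮y⟯ F)
    (t : F) (ht : Transcendental K t) :
    Algebra.IsAlgebraic (Algebra.adjoin K ({t} : Set F)) F := by
  have h1 : Algebra.IsAlgebraic K⟮y⟯ F := Algebra.IsAlgebraic.of_finite _ _
  have h2 : Algebra.IsAlgebraic (Algebra.adjoin K ({y} : Set F)) F :=
    (IsFractionRing.comap_isAlgebraic_iff (A := Algebra.adjoin K ({y} : Set F))
      (K := K⟮y⟯) (C := F)).mpr h1
  have h3 : Algebra.trdeg K F ≤ 1 := by
    have := Algebra.IsAlgebraic.trdeg_le_cardinalMk K ({y} : Set F)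
    simpa using this
  have hind : AlgebraicIndependent K (fun _ : Unit => t) :=
    algebraicIndependent_unique_type_iff.mpr ht
  have hb : IsTranscendenceBasis K (fun _ : Unit => t) :=
    hind.isTranscendenceBasis_of_trdeg_le_of_finite (by simpa using h3)
  have h4 := hb.isAlgebraic
  have e : Set.range (fun _ : Unit => t) = {t} := Set.range_const
  rw [e] at h4
  exact h4

/-- Two-variable polynomial relation between a transcendental `t` and any `x`. -/
theorem exists_relation (y : F) (hfin : FiniteDimensional K⟮y⟯ F)
    (t x : F) (ht : Transcendental K t) :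
    ∃ P : Polynomial (Polynomial K), P ≠ 0 ∧
      Polynomial.eval₂ ((Polynomial.aeval t : Polynomial K →ₐ[K] F) : Polynomial K →+* F) x P
        = 0 := by
  have h := isAlgebraic_adjoin_singleton_of_finite y hfin t ht
  obtain ⟨Q, hQ0, hQ⟩ := h.isAlgebraic x
  -- lift the coefficients along the surjection `K[T] → K[t]`
  let t' : Algebra.adjoin K ({t} : Set F) := ⟨t, Algebra.self_mem_adjoin_singleton K t⟩
  let φ : Polynomial K →+* Algebra.adjoin K ({t} : Set F) :=
    ((Polynomial.aeval t' : Polynomial K →ₐ[K] _) : Polynomial K →+* _)
  have hφval : ∀ p : Polynomial K, ((φ p : Algebra.adjoin K ({t} : Set F)) : F)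
      = Polynomial.aeval t p := fun p => by
    simp only [φ, AlgHom.coe_toRingHom, Polynomial.aeval_subalgebra_coe, t']
  have hφ : Function.Surjective φ := by
    rintro ⟨z, hz⟩
    rw [Algebra.adjoin_singleton_eq_range_aeval] at hz
    obtain ⟨p, rfl⟩ := hz
    exact ⟨p, Subtype.ext (hφval p)⟩
  obtain ⟨P, rfl⟩ := Polynomial.map_surjective φ hφ Q
  refine ⟨P, fun h0 => hQ0 (by simp [h0]), ?_⟩
  rw [Polynomial.aeval_def, Polynomial.eval₂_map] at hQ
  have hcomp : (algebraMap (Algebra.adjoin K ({t} : Set F)) F).comp φ
      = ((Polynomial.aeval t : Polynomial K →ₐ[K] F) : Polynomial K →+* F) := by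
    ext p
    · simp [φ]
    · simp [φ, t']
  rw [hcomp] at hQ
  exact hQ

/-- A relation which stays nonzero after setting `T = 0`. -/
theorem exists_relation_map_ne_zero (y : F) (hfin : FiniteDimensional K⟮y⟯ F)
    (t x : F) (ht : Transcendental K t) :
    ∃ P : Polynomial (Polynomial K), P.map (Polynomial.evalRingHom (0 : K)) ≠ 0 ∧
      Polynomial.eval₂ ((Polynomial.aeval t : Polynomial K →ₐ[K] F) : Polynomial K →+* F) x P
        = 0 := by
  obtain ⟨P, hP0, hP⟩ := exists_relation y hfin t x ht
  have ht0 : t ≠ 0 := fun h => ht (h ▸ isAlgebraic_zero)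
  set a : Polynomial (Polynomial K) := Polynomial.C Polynomial.X with ha
  have hau : ¬ IsUnit a := by
    intro h
    rw [ha, Polynomial.isUnit_C] at h
    exact Polynomial.not_isUnit_X h
  have hfm : FiniteMultiplicity a P := FiniteMultiplicity.of_not_isUnit hau hP0
  obtain ⟨c, hc, hndvd⟩ := hfm.exists_eq_pow_mul_and_not_dvd
  refine ⟨c, ?_, ?_⟩
  · intro hmap
    apply hndvd
    rw [ha, Polynomial.C_dvd_iff_dvd_coeff]
    intro i
    rw [Polynomial.X_dvd_iff]
    have := congrArg (fun q => Polynomial.coeff q i) hmap
    simp only [Polynomial.coeff_map, Polynomial.coeff_zero, Polynomial.coe_evalRingHom] at this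
    rw [← Polynomial.coeff_zero_eq_eval_zero] at this
    exact this
  · rw [hc, Polynomial.eval₂_mul, Polynomial.eval₂_pow, ha, Polynomial.eval₂_C] at hP
    simp only [AlgHom.coe_toRingHom, Polynomial.aeval_X] at hP
    rcases mul_eq_zero.mp hP with h | h
    · exact absurd h (pow_ne_zero _ ht0)
    · exact h

end Relation


section PlacePart

variable {K F : Type} [Field K] [Field F] [Algebra K F]

/-- An algebraic element of an extension of an algebraically closed field is a constant. -/
theorem mem_range_algebraMap_of_isAlgebraic [IsAlgClosed K] {z : F} (hz : IsAlgebraic K z) :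
    z ∈ (algebraMap K F).range :=
  minpoly.mem_range_of_degree_eq_one K z
    (IsAlgClosed.degree_eq_one_of_irreducible K (minpoly.irreducible hz.isIntegral))

/-- Nonzero constants are units of the valuation ring of a place. -/
theorem isUnit_algebraMap_place (v : Place K F) {c : K} (hc : c ≠ 0) :
    IsUnit (algebraMap K v.toValuationSubring c) :=
  (IsUnit.mk0 c hc).map (algebraMap K v.toValuationSubring)

/-- A nonzero element of the maximal ideal of a place is transcendental over the
(algebraically closed) constant field. -/
theorem transcendental_of_mem_maximalIdeal [IsAlgClosed K] (v : Place K F)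
    (π : v.toValuationSubring) (hπ : π ∈ IsLocalRing.maximalIdeal v.toValuationSubring)
    (hπ0 : π ≠ 0) : Transcendental K (π : F) := by
  intro halg
  obtain ⟨c, hc⟩ := mem_range_algebraMap_of_isAlgebraic halg
  have hc0 : c ≠ 0 := by
    rintro rfl
    apply hπ0
    apply Subtype.ext
    rw [← hc]
    simp
  have hu : IsUnit π := by
    have h1 := isUnit_algebraMap_place v hc0
    have h2 : algebraMap K v.toValuationSubring c = π := Subtype.ext (by rw [← hc]; rfl)
    rwa [h2] at h1
  exact (IsLocalRing.mem_maximalIdeal _).mp hπ hu

/-- The residue class of every element of the valuation ring of a place is algebraic over the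
constant field. -/
theorem isAlgebraic_residue [IsAlgClosed K] (y : F) (hfin : FiniteDimensional K⟮y⟯ F)
    (v : Place K F) (x : v.toValuationSubring) :
    IsAlgebraic K (IsLocalRing.residue v.toValuationSubring x) := by
  obtain ⟨π, hπ⟩ := IsDiscreteValuationRing.exists_irreducible v.toValuationSubring
  have hπm : π ∈ IsLocalRing.maximalIdeal v.toValuationSubring :=
    (IsLocalRing.mem_maximalIdeal _).mpr hπ.not_isUnit
  have ht := transcendental_of_mem_maximalIdeal v π hπm hπ.ne_zero
  obtain ⟨P, hP0, hP⟩ := exists_relation_map_ne_zero y hfin (π : F) (x : F) ht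
  refine ⟨P.map (Polynomial.evalRingHom (0 : K)), hP0, ?_⟩
  -- the relation holds in the valuation ring
  let ψ : Polynomial K →+* v.toValuationSubring :=
    ((Polynomial.aeval π : Polynomial K →ₐ[K] v.toValuationSubring) : Polynomial K →+* _)
  have hψ : (algebraMap v.toValuationSubring F).comp ψ
      = ((Polynomial.aeval (π : F) : Polynomial K →ₐ[K] F) : Polynomial K →+* F) := by
    ext p
    · simp [ψ]
    · simp [ψ]
  have hO : Polynomial.eval₂ ψ x P = 0 := by
    apply FaithfulSMul.algebraMap_injective v.toValuationSubring F
    rw [Polynomial.hom_eval₂, hψ, map_zero]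
    exact hP
  have hres : (IsLocalRing.residue v.toValuationSubring).comp ψ
      = (algebraMap K (IsLocalRing.ResidueField v.toValuationSubring)).comp
          (Polynomial.evalRingHom (0 : K)) := by
    ext p
    · simp [ψ]
      rfl
    · simp only [ψ, RingHom.coe_comp, AlgHom.coe_toRingHom, Function.comp_apply,
        Polynomial.aeval_X, Polynomial.coe_evalRingHom, Polynomial.eval_X, map_zero]
      exact (IsLocalRing.residue_eq_zero_iff _).mpr hπm
  have h1 := congrArg (IsLocalRing.residue v.toValuationSubring) hO
  rw [Polynomial.hom_eval₂, hres, map_zero] at h1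
  rw [Polynomial.aeval_def, Polynomial.eval₂_map]
  exact h1

/-- **GEN-1 (a)**: every place of a function field in one variable over an algebraically
closed field has degree one. -/
theorem place_deg_eq_one [IsAlgClosed K] (y : F) (hfin : FiniteDimensional K⟮y⟯ F)
    (v : Place K F) : v.deg = 1 := by
  have halg : Algebra.IsAlgebraic K v.ResidueField := ⟨fun z => by
    obtain ⟨x, rfl⟩ := IsLocalRing.residue_surjective z
    exact isAlgebraic_residue y hfin v x⟩
  have hint : Algebra.IsIntegral K v.ResidueField := halg.isIntegral
  have hbij := IsAlgClosed.algebraMap_bijective_of_isIntegral (k := K) (K := v.ResidueField)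
  unfold Place.deg
  have e : K ≃ₗ[K] v.ResidueField := LinearEquiv.ofBijective (Algebra.linearMap K _) hbij
  rw [← e.finrank_eq, Module.finrank_self]

/-- Companion statement: every element of the valuation ring of a place is congruent to a
constant modulo the maximal ideal. -/
theorem exists_sub_algebraMap_mem_maximalIdeal [IsAlgClosed K] (y : F)
    (hfin : FiniteDimensional K⟮y⟯ F) (v : Place K F) (x : v.toValuationSubring) :
    ∃ c : K, x - algebraMap K v.toValuationSubring c
      ∈ IsLocalRing.maximalIdeal v.toValuationSubring := by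
  obtain ⟨c, hc⟩ := mem_range_algebraMap_of_isAlgebraic (isAlgebraic_residue y hfin v x)
  refine ⟨c, ?_⟩
  rw [← IsLocalRing.residue_eq_zero_iff, map_sub, sub_eq_zero]
  exact hc.symm

end PlacePart

end Fermat.Agent.H84
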