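/-
helper84: the fundamental identity `∑ ord_v(y) = [F : K(y)]` over the zeros of `y`
(GEN-1 of P-GENUS / S24), via the integral closure of `K[y]` in `F` and Mathlib's
`Ideal.sum_ramification_inertia`.
-/
import Mathlib
import Fermat.Agent.H84.PlaceDeg

set_option autoImplicit false
set_option linter.deprecated false
set_option linter.style.haveILetI false

namespace Fermat.Agent.H84

open AlgebraicCurve IntermediateField Polynomial IsDedekindDomain
open scoped IntermediateField.algebraAdjoinAdjoin

variable {K F : Type} [Field K] [Field F] [Algebra K F]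

section Base

variable (y : F)

/-- the generator `y` as an element of `K[y]`. -/
def genA : Algebra.adjoin K ({y} : Set F) := ⟨y, Algebra.self_mem_adjoin_singleton K y⟩

@[simp] theorem coe_genA : ((genA (K := K) y : Algebra.adjoin K ({y} : Set F)) : F) = y := rfl

/-- the surjection `K[X] → K[y]`. -/
noncomputable def polyToA : Polynomial K →ₐ[K] Algebra.adjoin K ({y} : Set F) :=
  Polynomial.aeval (genA (K := K) y)

theorem coe_polyToA (p : Polynomial K) :
    ((polyToA (K := K) y p : Algebra.adjoin K ({y} : Set F)) : F) = Polynomial.aeval y p := by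
  simp only [polyToA, genA, Polynomial.aeval_subalgebra_coe]

theorem polyToA_surjective : Function.Surjective (polyToA (K := K) y) := by
  rintro ⟨z, hz⟩
  rw [Algebra.adjoin_singleton_eq_range_aeval] at hz
  obtain ⟨p, rfl⟩ := hz
  exact ⟨p, Subtype.ext (coe_polyToA y p)⟩

theorem polyToA_injective (hy : Transcendental K y) :
    Function.Injective (polyToA (K := K) y) := by
  intro p q h
  have := congrArg (fun z : Algebra.adjoin K ({y} : Set F) => (z : F)) h
  simp only [coe_polyToA] at this
  exact (transcendental_iff_injective.mp hy) this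

theorem isPrincipalIdealRing_adjoin :
    IsPrincipalIdealRing (Algebra.adjoin K ({y} : Set F)) :=
  IsPrincipalIdealRing.of_surjective (polyToA (K := K) y) (polyToA_surjective y)

/-- the ideal `(y)` of `K[y]`. -/
def idealA : Ideal (Algebra.adjoin K ({y} : Set F)) := Ideal.span {genA (K := K) y}

theorem genA_ne_zero (hy : Transcendental K y) : genA (K := K) y ≠ 0 := by
  intro h
  have := congrArg (fun z : Algebra.adjoin K ({y} : Set F) => (z : F)) h
  simp only [coe_genA] at this
  exact hy (this ▸ isAlgebraic_zero)

theorem idealA_ne_bot (hy : Transcendental K y) : idealA (K := K) y ≠ ⊥ := by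
  rw [idealA, Ne, Ideal.span_singleton_eq_bot]
  exact genA_ne_zero y hy

theorem idealA_isMaximal (hy : Transcendental K y) : (idealA (K := K) y).IsMaximal := by
  haveI := isPrincipalIdealRing_adjoin (K := K) y
  have hirr : Irreducible (genA (K := K) y) := by
    let e : Polynomial K ≃+* Algebra.adjoin K ({y} : Set F) :=
      RingEquiv.ofBijective (polyToA (K := K) y) ⟨polyToA_injective y hy, polyToA_surjective y⟩
    have : genA (K := K) y = e Polynomial.X := by
      simp [e, polyToA]
    rw [this]
    exact (MulEquiv.irreducible_iff e).mpr Polynomial.irreducible_X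
  exact PrincipalIdealRing.isMaximal_of_irreducible hirr

theorem isDedekindDomain_adjoin : IsDedekindDomain (Algebra.adjoin K ({y} : Set F)) := by
  haveI := isPrincipalIdealRing_adjoin (K := K) y
  infer_instance

theorem isSeparable_of_charZero [CharZero K] (hfin : FiniteDimensional K⟮y⟯ F) :
    Algebra.IsSeparable K⟮y⟯ F := by
  infer_instance

theorem isDedekindDomain_closure [CharZero K] (hfin : FiniteDimensional K⟮y⟯ F) :
    IsDedekindDomain (integralClosure (Algebra.adjoin K ({y} : Set F)) F) := by
  haveI := isDedekindDomain_adjoin (K := K) y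
  haveI := isSeparable_of_charZero y hfin
  exact integralClosure.isDedekindDomain (Algebra.adjoin K ({y} : Set F)) K⟮y⟯ F

theorem finite_closure [CharZero K] (hfin : FiniteDimensional K⟮y⟯ F) :
    Module.Finite (Algebra.adjoin K ({y} : Set F))
      (integralClosure (Algebra.adjoin K ({y} : Set F)) F) := by
  haveI := isDedekindDomain_adjoin (K := K) y
  haveI := isSeparable_of_charZero y hfin
  exact IsIntegralClosure.finite (Algebra.adjoin K ({y} : Set F)) K⟮y⟯ F _

theorem isFractionRing_closure (hfin : FiniteDimensional K⟮y⟯ F) :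
    IsFractionRing (integralClosure (Algebra.adjoin K ({y} : Set F)) F) F :=
  integralClosure.isFractionRing_of_finite_extension K⟮y⟯ F

/-- The fundamental identity in Mathlib's form. -/
theorem sum_ramification_inertia_closure [CharZero K] (hy : Transcendental K y)
    (hfin : FiniteDimensional K⟮y⟯ F) :
    haveI := isDedekindDomain_closure (K := K) y hfin
    ∑ P ∈ IsDedekindDomain.primesOverFinset (idealA (K := K) y)
        (integralClosure (Algebra.adjoin K ({y} : Set F)) F),
      Ideal.ramificationIdx' (idealA (K := K) y) P * Ideal.inertiaDeg' (idealA (K := K) y) P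
      = Module.finrank K⟮y⟯ F := by
  haveI := isDedekindDomain_adjoin (K := K) y
  haveI := isDedekindDomain_closure (K := K) y hfin
  haveI := finite_closure (K := K) y hfin
  haveI := isFractionRing_closure (K := K) y hfin
  haveI := idealA_isMaximal (K := K) y hy
  exact Ideal.sum_ramification_inertia (integralClosure (Algebra.adjoin K ({y} : Set F)) F)
    K⟮y⟯ F (idealA_ne_bot y hy)

end Base


section Places

variable (y : F)

/-- The valuation ring of a place as a `K`-subalgebra of `F`. -/
def placeSubalgebra (v : Place K F) : Subalgebra K F :=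
  { v.toValuationSubring.toSubring with algebraMap_mem' := v.algebraMap_mem' }

theorem mem_placeSubalgebra (v : Place K F) (x : F) :
    x ∈ placeSubalgebra v ↔ x ∈ v.toValuationSubring := Iff.rfl

theorem adjoin_le_place (v : Place K F) (hyv : y ∈ v.toValuationSubring) :
    Algebra.adjoin K ({y} : Set F) ≤ placeSubalgebra v :=
  Algebra.adjoin_le (by
    intro z hz
    rw [Set.mem_singleton_iff] at hz
    subst hz
    exact hyv)

theorem closure_le_place (v : Place K F) (hyv : y ∈ v.toValuationSubring)
    (b : F) (hb : IsIntegral (Algebra.adjoin K ({y} : Set F)) b) :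
    b ∈ v.toValuationSubring := by
  let φ : Algebra.adjoin K ({y} : Set F) →+* v.toValuationSubring :=
    { toFun := fun a => ⟨(a : F), adjoin_le_place y v hyv a.2⟩
      map_one' := rfl
      map_mul' := fun _ _ => rfl
      map_zero' := rfl
      map_add' := fun _ _ => rfl }
  have h1 : IsIntegral v.toValuationSubring b := by
    have := IsIntegral.map_of_comp_eq φ (RingHom.id F) (by ext; rfl) hb
    simpa using this
  obtain ⟨z, hz⟩ := (IsIntegrallyClosed.isIntegral_iff (R := v.toValuationSubring) (K := F)).mp h1
  rw [← hz]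
  exact z.2

end Places


section OrdCompat

open WithZero

variable {R : Type} [CommRing R] [IsDedekindDomain R] [Algebra R F] [IsFractionRing R F]
  [Algebra K R] [IsScalarTower K R F]

theorem zmz_le_exp_neg_one_of_lt_one {a : ℤᵐ⁰} (h : a < 1) : a ≤ exp (-1 : ℤ) := by
  rcases eq_or_ne a 0 with rfl | ha
  · exact zero_le'
  · rw [← exp_log ha] at h ⊢
    rw [← exp_zero, exp_lt_exp] at h
    rw [exp_le_exp]
    omega

/-- An element of valuation `exp (-1)` is irreducible in the valuation ring. -/
theorem irreducible_of_valuation_eq (w : HeightOneSpectrum R)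
    (π : (Place.ofHeightOneSpectrum (K := K) (F := F) w).toValuationSubring)
    (hπ : w.valuation F (π : F) = exp (-1 : ℤ)) :
    Irreducible π := by
  have hv : (w.valuation F).Integers
      (Place.ofHeightOneSpectrum (K := K) (F := F) w).toValuationSubring :=
    Valuation.valuationSubring.integers (w.valuation F)
  rw [IsDiscreteValuationRing.irreducible_iff_uniformizer]
  apply SetLike.coe_injective
  rw [hv.coe_span_singleton_eq_setOfPred_le_v_algebraMap]
  ext x
  simp only [SetLike.mem_coe, IsLocalRing.mem_maximalIdeal, mem_nonunits_iff, Set.mem_setOf_eq]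
  rw [hv.isUnit_iff_valuation_eq_one]
  have hx1 : w.valuation F (algebraMap _ F x) ≤ 1 := hv.map_le_one x
  have hπ' : w.valuation F
      (algebraMap (Place.ofHeightOneSpectrum (K := K) (F := F) w).toValuationSubring F π)
      = exp (-1 : ℤ) := hπ
  rw [hπ']
  constructor
  · intro hne
    exact zmz_le_exp_neg_one_of_lt_one (lt_of_le_of_ne hx1 hne)
  · intro hle h1
    rw [h1, ← exp_zero, exp_le_exp] at hle
    omega

/-- The order function of the place attached to a height-one prime is the negative logarithm
of the adic valuation. -/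
theorem ord_ofHeightOneSpectrum (w : HeightOneSpectrum R) (f : F) (hf : f ≠ 0) :
    (Place.ofHeightOneSpectrum (K := K) (F := F) w).ord f = - log (w.valuation F f) := by
  have hv : (w.valuation F).Integers
      (Place.ofHeightOneSpectrum (K := K) (F := F) w).toValuationSubring :=
    Valuation.valuationSubring.integers (w.valuation F)
  obtain ⟨π₀, hπ₀⟩ := w.valuation_exists_uniformizer F
  have hπmem : π₀ ∈ (Place.ofHeightOneSpectrum (K := K) (F := F) w).toValuationSubring := by
    show π₀ ∈ (w.valuation F).valuationSubring
    rw [Valuation.mem_valuationSubring_iff, hπ₀, ← exp_zero, exp_le_exp]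
    omega
  have hirr : Irreducible
      (⟨π₀, hπmem⟩ : (Place.ofHeightOneSpectrum (K := K) (F := F) w).toValuationSubring) :=
    irreducible_of_valuation_eq w ⟨π₀, hπmem⟩ hπ₀
  obtain ⟨u, hu⟩ := (Place.ofHeightOneSpectrum (K := K) (F := F) w).exists_unit_mul_zpow hf hirr
  have hval := congrArg (w.valuation F) hu
  rw [map_mul, map_zpow₀] at hval
  have hu1 : w.valuation F
      ((u : (Place.ofHeightOneSpectrum (K := K) (F := F) w).toValuationSubring) : F) = 1 :=
    hv.valuation_unit u
  rw [hu1, one_mul] at hval
  simp only [hπ₀] at hval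
  rw [← exp_zsmul] at hval
  rw [hval, log_exp]
  simp

end OrdCompat


section PlaceBasics

/-- An element of nonnegative order lies in the valuation ring. -/
theorem mem_of_ord_nonneg (v : Place K F) {f : F} (hf : f ≠ 0) (h : 0 ≤ v.ord f) :
    f ∈ v.toValuationSubring := by
  obtain ⟨π, hπ⟩ := IsDiscreteValuationRing.exists_irreducible v.toValuationSubring
  obtain ⟨u, hu⟩ := v.exists_unit_mul_zpow hf hπ
  obtain ⟨n, hn⟩ := Int.eq_ofNat_of_zero_le h
  rw [hn, zpow_natCast] at hu
  rw [hu]
  exact v.toValuationSubring.mul_mem _ _ (u : v.toValuationSubring).2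
    (pow_mem π.2 n)

/-- An element of positive order lies in the maximal ideal. -/
theorem mem_maximalIdeal_of_ord_pos (v : Place K F) {f : F} (h : 0 < v.ord f)
    (hmem : f ∈ v.toValuationSubring) :
    (⟨f, hmem⟩ : v.toValuationSubring) ∈ IsLocalRing.maximalIdeal v.toValuationSubring := by
  rw [IsLocalRing.mem_maximalIdeal, mem_nonunits_iff]
  intro hu
  obtain ⟨u, hu⟩ := hu
  have := v.ord_coe_unit u
  rw [hu] at this
  simp only at this
  omega

/-- A nonzero element of the maximal ideal has positive order. -/
theorem ord_pos_of_mem_maximalIdeal (v : Place K F) (x : v.toValuationSubring)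
    (hx : x ∈ IsLocalRing.maximalIdeal v.toValuationSubring) (hx0 : x ≠ 0) :
    0 < v.ord (x : F) := by
  obtain ⟨π, hπ⟩ := IsDiscreteValuationRing.exists_irreducible v.toValuationSubring
  obtain ⟨n, u, hu⟩ := IsDiscreteValuationRing.eq_unit_mul_pow_irreducible hx0 hπ
  have hcoe : (x : F) = ((u : v.toValuationSubring) : F) * ((π : F) ^ (n : ℤ)) := by
    rw [hu]; simp
  rw [hcoe, v.ord_unit_smul_zpow u hπ]
  rcases Nat.eq_zero_or_pos n with h0 | hpos
  · exfalso
    rw [h0, pow_zero, mul_one] at hu
    rw [IsLocalRing.mem_maximalIdeal, mem_nonunits_iff] at hx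
    exact hx (hu ▸ u.isUnit)
  · exact_mod_cast hpos

end PlaceBasics


section Correspondence

open WithZero

variable (y : F)

variable [IsDedekindDomain (integralClosure (Algebra.adjoin K ({y} : Set F)) F)]
  [IsFractionRing (integralClosure (Algebra.adjoin K ({y} : Set F)) F) F]

/-- `y` as an element of the integral closure. -/
def genB : integralClosure (Algebra.adjoin K ({y} : Set F)) F :=
  algebraMap (Algebra.adjoin K ({y} : Set F)) _ (genA (K := K) y)

omit [IsDedekindDomain (integralClosure (Algebra.adjoin K ({y} : Set F)) F)]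
  [IsFractionRing (integralClosure (Algebra.adjoin K ({y} : Set F)) F) F] in
@[simp] theorem coe_genB :
    ((genB (K := K) y : integralClosure (Algebra.adjoin K ({y} : Set F)) F) : F) = y := rfl

omit [IsDedekindDomain (integralClosure (Algebra.adjoin K ({y} : Set F)) F)]
  [IsFractionRing (integralClosure (Algebra.adjoin K ({y} : Set F)) F) F] in
theorem algebraMap_genB :
    algebraMap (integralClosure (Algebra.adjoin K ({y} : Set F)) F) F (genB (K := K) y) = y :=
  rfl

/-- positivity of the order at `w` means `y ∈ w`. -/
theorem ord_pos_iff_genB_mem (hy0 : y ≠ 0)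
    (w : HeightOneSpectrum (integralClosure (Algebra.adjoin K ({y} : Set F)) F)) :
    0 < (Place.ofHeightOneSpectrum (K := K) (F := F) w).ord y ↔ genB (K := K) y ∈ w.asIdeal := by
  rw [ord_ofHeightOneSpectrum w y hy0, ← w.valuation_lt_one_iff_mem (K := F)]
  show _ ↔ w.valuation F y < 1
  have hne : w.valuation F y ≠ 0 := (Valuation.ne_zero_iff _).mpr hy0
  constructor
  · intro h
    rw [← exp_log hne, ← exp_zero, exp_lt_exp]
    omega
  · intro h
    rw [← exp_log hne, ← exp_zero, exp_lt_exp] at h
    omega


omit [IsDedekindDomain (integralClosure (Algebra.adjoin K ({y} : Set F)) F)]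
  [IsFractionRing (integralClosure (Algebra.adjoin K ({y} : Set F)) F) F] in
theorem liesOver_iff_genB_mem (hy : Transcendental K y)
    (P : Ideal (integralClosure (Algebra.adjoin K ({y} : Set F)) F)) [hP : P.IsPrime] :
    P.LiesOver (idealA (K := K) y) ↔ genB (K := K) y ∈ P := by
  rw [Ideal.liesOver_iff]
  constructor
  · intro h
    have h1 : genA (K := K) y ∈ idealA (K := K) y := Ideal.subset_span rfl
    rw [h] at h1
    exact h1
  · intro h
    have hle : idealA (K := K) y ≤ Ideal.under (Algebra.adjoin K ({y} : Set F)) P := by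
      rw [idealA, Ideal.span_le]
      intro z hz
      rw [Set.mem_singleton_iff] at hz
      subst hz
      exact h
    have hne : Ideal.under (Algebra.adjoin K ({y} : Set F)) P ≠ ⊤ := by
      intro htop
      have : (1 : Algebra.adjoin K ({y} : Set F)) ∈
          Ideal.under (Algebra.adjoin K ({y} : Set F)) P := htop ▸ Submodule.mem_top
      rw [Ideal.under_def, Ideal.mem_comap, map_one] at this
      exact hP.ne_top ((Ideal.eq_top_iff_one P).mpr this)
    exact (idealA_isMaximal (K := K) y hy).eq_of_le hne hle

/-- the order of `y` at the place of `w` is the ramification index. -/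
theorem ord_eq_ramificationIdx (hy : Transcendental K y)
    (w : HeightOneSpectrum (integralClosure (Algebra.adjoin K ({y} : Set F)) F))
    (hw : genB (K := K) y ∈ w.asIdeal) :
    (Place.ofHeightOneSpectrum (K := K) (F := F) w).ord y
      = (Ideal.ramificationIdx' (idealA (K := K) y) w.asIdeal : ℤ) := by
  have hy0 : y ≠ 0 := fun h => hy (h ▸ isAlgebraic_zero)
  haveI := isDedekindDomain_adjoin (K := K) y
  haveI : (idealA (K := K) y).IsMaximal := idealA_isMaximal y hy
  let vA : HeightOneSpectrum (Algebra.adjoin K ({y} : Set F)) :=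
    ⟨idealA (K := K) y, inferInstance, idealA_ne_bot y hy⟩
  haveI : w.asIdeal.LiesOver vA.asIdeal := (liesOver_iff_genB_mem y hy w.asIdeal).mpr hw
  have h1 := HeightOneSpectrum.intValuation_liesOver vA w (genA (K := K) y)
  rw [vA.intValuation_singleton (genA_ne_zero y hy) rfl] at h1
  rw [ord_ofHeightOneSpectrum w y hy0]
  have h2 : w.valuation F y = w.intValuation (genB (K := K) y) :=
    w.valuation_of_algebraMap (K := F) (genB (K := K) y)
  rw [h2]
  have h3 : w.intValuation (genB (K := K) y)
      = exp (-(Ideal.ramificationIdx' (idealA (K := K) y) w.asIdeal : ℤ)) := by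
    rw [show genB (K := K) y = algebraMap _ _ (genA (K := K) y) from rfl, ← h1, ← exp_nsmul]
    simp
    rfl
  rw [h3, log_exp]
  simp


/-- Distinct height-one primes give distinct places. -/
theorem ofHeightOneSpectrum_injective {R : Type} [CommRing R] [IsDedekindDomain R]
    [Algebra R F] [IsFractionRing R F] [Algebra K R] [IsScalarTower K R F] :
    Function.Injective (fun w : HeightOneSpectrum R =>
      Place.ofHeightOneSpectrum (K := K) (F := F) w) := by
  intro w w' h
  have h1 : (w.valuation F).valuationSubring = (w'.valuation F).valuationSubring :=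
    congrArg Place.toValuationSubring h
  exact HeightOneSpectrum.eq_of_valuation_isEquiv_valuation
    ((Valuation.isEquiv_iff_valuationSubring _ _).mpr h1)

/-- Every zero of `y` comes from a height-one prime of the integral closure containing `y`. -/
theorem exists_heightOneSpectrum_of_ord_pos (v : Place K F) (hv : 0 < v.ord y) :
    ∃ w : HeightOneSpectrum (integralClosure (Algebra.adjoin K ({y} : Set F)) F),
      genB (K := K) y ∈ w.asIdeal ∧ Place.ofHeightOneSpectrum (K := K) (F := F) w = v := by
  have hy0 : y ≠ 0 := by
    rintro rfl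
    simp at hv
  have hyv : y ∈ v.toValuationSubring := mem_of_ord_nonneg v hy0 hv.le
  have hB : ∀ b : integralClosure (Algebra.adjoin K ({y} : Set F)) F,
      (b : F) ∈ v.toValuationSubring := fun b => closure_le_place y v hyv b b.2
  let ι : integralClosure (Algebra.adjoin K ({y} : Set F)) F →+* v.toValuationSubring :=
    { toFun := fun b => ⟨(b : F), hB b⟩
      map_one' := rfl
      map_mul' := fun _ _ => rfl
      map_zero' := rfl
      map_add' := fun _ _ => rfl }
  let P : Ideal (integralClosure (Algebra.adjoin K ({y} : Set F)) F) :=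
    Ideal.comap ι (IsLocalRing.maximalIdeal v.toValuationSubring)
  have hPprime : P.IsPrime := Ideal.comap_isPrime ι _
  have hgen : genB (K := K) y ∈ P := by
    show ι (genB (K := K) y) ∈ IsLocalRing.maximalIdeal v.toValuationSubring
    exact mem_maximalIdeal_of_ord_pos v hv hyv
  have hgen0 : genB (K := K) y ≠ 0 := by
    intro h
    apply hy0
    have := congrArg (fun b : integralClosure (Algebra.adjoin K ({y} : Set F)) F => (b : F)) h
    simpa using this
  have hPne : P ≠ ⊥ := fun h => hgen0 (by rw [h] at hgen; exact hgen)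
  refine ⟨⟨P, hPprime, hPne⟩, hgen, ?_⟩
  apply Place.ext
  show ((⟨P, hPprime, hPne⟩ : HeightOneSpectrum _).valuation F).valuationSubring
    = v.toValuationSubring
  haveI : Ring.KrullDimLE 1
      (((⟨P, hPprime, hPne⟩ : HeightOneSpectrum
        (integralClosure (Algebra.adjoin K ({y} : Set F)) F)).valuation F).valuationSubring) :=
    inferInstanceAs (Ring.KrullDimLE 1
      (Place.ofHeightOneSpectrum (K := K) (F := F) (⟨P, hPprime, hPne⟩ : HeightOneSpectrum
        (integralClosure (Algebra.adjoin K ({y} : Set F)) F))).toValuationSubring)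
  refine ValuationSubring.eq_of_le_of_ne_top _ ?_ v.ne_top'
  intro x hx
  rw [Valuation.mem_valuationSubring_iff] at hx
  obtain ⟨n, d, hnd⟩ := HeightOneSpectrum.exists_primeCompl_mul_eq_of_integer
    (⟨P, hPprime, hPne⟩ : HeightOneSpectrum _) x hx
  have hd : ι d ∉ IsLocalRing.maximalIdeal v.toValuationSubring := d.2
  rw [IsLocalRing.mem_maximalIdeal, mem_nonunits_iff, not_not] at hd
  obtain ⟨u, hu⟩ := hd
  have hd0 : algebraMap (integralClosure (Algebra.adjoin K ({y} : Set F)) F) F d ≠ 0 := by
    intro h0
    have : (ι d : F) = 0 := h0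
    have h1 : ι d = 0 := Subtype.ext this
    rw [← hu] at h1
    exact u.ne_zero h1
  have hx' : x = (ι n : F) * ((u⁻¹ : (v.toValuationSubring)ˣ) : v.toValuationSubring) := by
    have hud : ((u : v.toValuationSubring) : F)
        = algebraMap (integralClosure (Algebra.adjoin K ({y} : Set F)) F) F d := by
      rw [hu]; rfl
    have huinv : (((u⁻¹ : (v.toValuationSubring)ˣ) : v.toValuationSubring) : F)
        = (algebraMap (integralClosure (Algebra.adjoin K ({y} : Set F)) F) F d)⁻¹ := by
      rw [← hud]
      have := congrArg (fun z : v.toValuationSubring => (z : F)) (Units.inv_mul u)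
      simp only [MulMemClass.coe_mul, OneMemClass.coe_one] at this
      exact eq_inv_of_mul_eq_one_left this
    rw [huinv]
    show x = algebraMap _ F n * _
    rw [← hnd]
    field_simp
  rw [hx']
  exact v.toValuationSubring.mul_mem _ _ (ι n).2 (Subtype.mem _)


/-- Elements of the maximal ideal of the place of `w` have valuation `< 1`. -/
theorem valuation_lt_one_of_mem_maximalIdeal {R : Type} [CommRing R] [IsDedekindDomain R]
    [Algebra R F] [IsFractionRing R F] [Algebra K R] [IsScalarTower K R F]
    (w : HeightOneSpectrum R)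
    (x : (Place.ofHeightOneSpectrum (K := K) (F := F) w).toValuationSubring)
    (hx : x ∈ IsLocalRing.maximalIdeal
      (Place.ofHeightOneSpectrum (K := K) (F := F) w).toValuationSubring) :
    w.valuation F (x : F) < 1 := by
  have hv : (w.valuation F).Integers
      (Place.ofHeightOneSpectrum (K := K) (F := F) w).toValuationSubring :=
    Valuation.valuationSubring.integers (w.valuation F)
  rw [IsLocalRing.mem_maximalIdeal, mem_nonunits_iff, hv.isUnit_iff_valuation_eq_one] at hx
  exact lt_of_le_of_ne (hv.map_le_one x) hx

set_option synthInstance.maxHeartbeats 400000 in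
/-- The residue degree of every prime over `(y)` is one. -/
theorem inertiaDeg_eq_one [IsAlgClosed K] (hy : Transcendental K y)
    (hfin : FiniteDimensional K⟮y⟯ F)
    (w : HeightOneSpectrum (integralClosure (Algebra.adjoin K ({y} : Set F)) F))
    (hw : genB (K := K) y ∈ w.asIdeal) :
    Ideal.inertiaDeg' (idealA (K := K) y) w.asIdeal = 1 := by
  haveI : (idealA (K := K) y).IsMaximal := idealA_isMaximal y hy
  haveI : w.asIdeal.LiesOver (idealA (K := K) y) :=
    (liesOver_iff_genB_mem y hy w.asIdeal).mpr hw
  rw [Ideal.inertiaDeg'_algebraMap]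
  have hsurj : Function.Surjective
      (algebraMap (Algebra.adjoin K ({y} : Set F) ⧸ idealA (K := K) y)
        (integralClosure (Algebra.adjoin K ({y} : Set F)) F ⧸ w.asIdeal)) := by
    intro z
    obtain ⟨b, rfl⟩ := Ideal.Quotient.mk_surjective z
    have hbmem : (b : F) ∈ (Place.ofHeightOneSpectrum (K := K) (F := F) w).toValuationSubring :=
      (Valuation.mem_valuationSubring_iff _ _).mpr (w.valuation_le_one b)
    obtain ⟨c, hc⟩ := exists_sub_algebraMap_mem_maximalIdeal y hfin
      (Place.ofHeightOneSpectrum (K := K) (F := F) w) ⟨(b : F), hbmem⟩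
    have hlt := valuation_lt_one_of_mem_maximalIdeal w _ hc
    have hmem : b - algebraMap K _ c ∈ w.asIdeal := by
      rw [← w.valuation_lt_one_iff_mem (K := F)]
      exact hlt
    refine ⟨Ideal.Quotient.mk _ (algebraMap K _ c), ?_⟩
    rw [Ideal.Quotient.algebraMap_mk_of_liesOver]
    rw [← IsScalarTower.algebraMap_apply K (Algebra.adjoin K ({y} : Set F))
      (integralClosure (Algebra.adjoin K ({y} : Set F)) F)]
    rw [eq_comm, Ideal.Quotient.eq]
    exact hmem
  have hinj : Function.Injective
      (algebraMap (Algebra.adjoin K ({y} : Set F) ⧸ idealA (K := K) y)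
        (integralClosure (Algebra.adjoin K ({y} : Set F)) F ⧸ w.asIdeal)) := by
    letI := Ideal.Quotient.field (idealA (K := K) y)
    exact RingHom.injective _
  rw [← (LinearEquiv.ofBijective (Algebra.linearMap
    (Algebra.adjoin K ({y} : Set F) ⧸ idealA (K := K) y)
    (integralClosure (Algebra.adjoin K ({y} : Set F)) F ⧸ w.asIdeal)) ⟨hinj, hsurj⟩).finrank_eq,
    Module.finrank_self]

end Correspondence


section Final

variable (y : F)

set_option synthInstance.maxHeartbeats 400000 in
/-- **GEN-1 (b)**: the zeros of `y` are finite in number and their orders add up to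
`[F : K(y)]`. -/
theorem finite_zeros_and_sum_ord [IsAlgClosed K] [CharZero K] (hy : Transcendental K y)
    (hfin : FiniteDimensional K⟮y⟯ F) :
    {v : Place K F | 0 < v.ord y}.Finite ∧
      ∑ᶠ v ∈ {v : Place K F | 0 < v.ord y}, v.ord y = (Module.finrank K⟮y⟯ F : ℤ) := by
  have hy0 : y ≠ 0 := fun h => hy (h ▸ isAlgebraic_zero)
  haveI := isDedekindDomain_adjoin (K := K) y
  haveI := isDedekindDomain_closure (K := K) y hfin
  haveI := isFractionRing_closure (K := K) y hfin
  haveI : (idealA (K := K) y).IsMaximal := idealA_isMaximal y hy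
  have hp0 := idealA_ne_bot (K := K) y hy
  -- membership in the finset of primes over `(y)`
  have hmem : ∀ P : Ideal (integralClosure (Algebra.adjoin K ({y} : Set F)) F),
      P ∈ IsDedekindDomain.primesOverFinset (idealA (K := K) y)
        (integralClosure (Algebra.adjoin K ({y} : Set F)) F) ↔
      P.IsPrime ∧ P.LiesOver (idealA (K := K) y) := fun P =>
    IsDedekindDomain.mem_primesOverFinset_iff hp0 _
  have hne : ∀ P : Ideal (integralClosure (Algebra.adjoin K ({y} : Set F)) F),
      P ∈ IsDedekindDomain.primesOverFinset (idealA (K := K) y)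
        (integralClosure (Algebra.adjoin K ({y} : Set F)) F) → P ≠ ⊥ := fun P hP => by
    haveI := ((hmem P).mp hP).2
    exact Ideal.ne_bot_of_liesOver_of_ne_bot hp0 P
  -- the map from primes to places
  let toW : ∀ P : Ideal (integralClosure (Algebra.adjoin K ({y} : Set F)) F),
      P ∈ IsDedekindDomain.primesOverFinset (idealA (K := K) y)
        (integralClosure (Algebra.adjoin K ({y} : Set F)) F) →
      HeightOneSpectrum (integralClosure (Algebra.adjoin K ({y} : Set F)) F) :=
    fun P hP => ⟨P, ((hmem P).mp hP).1, hne P hP⟩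
  have hgen : ∀ P hP, genB (K := K) y ∈ (toW P hP).asIdeal := fun P hP => by
    haveI := ((hmem P).mp hP).1
    exact (liesOver_iff_genB_mem y hy P).mp ((hmem P).mp hP).2
  have hsurj : ∀ v : Place K F, 0 < v.ord y → ∃ P, ∃ hP,
      Place.ofHeightOneSpectrum (K := K) (F := F) (toW P hP) = v := by
    intro v hv
    obtain ⟨w, hw, rfl⟩ := exists_heightOneSpectrum_of_ord_pos y v hv
    have hP : w.asIdeal ∈ IsDedekindDomain.primesOverFinset (idealA (K := K) y)
        (integralClosure (Algebra.adjoin K ({y} : Set F)) F) :=
      (hmem _).mpr ⟨w.isPrime, (liesOver_iff_genB_mem y hy w.asIdeal).mpr hw⟩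
    exact ⟨w.asIdeal, hP, rfl⟩
  have hfinite : {v : Place K F | 0 < v.ord y}.Finite := by
    refine Set.Finite.subset (Set.finite_range
      (fun P : {P // P ∈ IsDedekindDomain.primesOverFinset (idealA (K := K) y)
        (integralClosure (Algebra.adjoin K ({y} : Set F)) F)} =>
        Place.ofHeightOneSpectrum (K := K) (F := F) (toW P.1 P.2))) ?_
    intro v hv
    obtain ⟨P, hP, h⟩ := hsurj v hv
    exact ⟨⟨P, hP⟩, h⟩
  refine ⟨hfinite, ?_⟩
  rw [finsum_mem_eq_finite_toFinset_sum _ hfinite,
    ← sum_ramification_inertia_closure (K := K) y hy hfin, Nat.cast_sum]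
  symm
  refine Finset.sum_bij
    (fun P hP => Place.ofHeightOneSpectrum (K := K) (F := F) (toW P hP)) ?_ ?_ ?_ ?_
  · intro P hP
    rw [Set.Finite.mem_toFinset, Set.mem_setOf_eq]
    exact (ord_pos_iff_genB_mem y hy0 (toW P hP)).mpr (hgen P hP)
  · intro P hP Q hQ h
    have := ofHeightOneSpectrum_injective (K := K) (F := F) h
    exact congrArg HeightOneSpectrum.asIdeal this
  · intro v hv
    rw [Set.Finite.mem_toFinset, Set.mem_setOf_eq] at hv
    exact hsurj v hv
  · intro P hP
    have h1 := ord_eq_ramificationIdx y hy (toW P hP) (hgen P hP)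
    have h2 := inertiaDeg_eq_one y hy hfin (toW P hP) (hgen P hP)
    rw [h1]
    have h3 : Ideal.inertiaDeg' (idealA (K := K) y) P = 1 := h2
    rw [h3, mul_one]

/-- **GEN-1** in the form used by the P-GENUS blueprint (`FundamentalIdentityStatement`). -/
theorem fundamental_identity_full (K F : Type) [Field K] [Field F] [Algebra K F]
    [IsAlgClosed K] [CharZero K] (y : F) (hy : Transcendental K y)
    (hfin : FiniteDimensional K⟮y⟯ F) :
    (∀ v : Place K F, v.deg = 1) ∧
    {v : Place K F | 0 < v.ord y}.Finite ∧
    ∑ᶠ v ∈ {v : Place K F | 0 < v.ord y}, v.ord y = (Module.finrank K⟮y⟯ F : ℤ) :=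
  ⟨fun v => place_deg_eq_one y hfin v, finite_zeros_and_sum_ord y hy hfin⟩

end Final

end Fermat.Agent.H84
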