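/-
helper84: GEN-1 of P-GENUS (S24) in the exact blueprint form.
-/
import Fermat.Agent.H23.BlueprintRH
import Fermat.Agent.H84.FundIdentity

set_option autoImplicit false

namespace Fermat.Agent.H84

/-- **RH-1 / GEN-1**: fundamental identity and residue degree one. -/
theorem fundamentalIdentity : Fermat.Agent.H23.FundamentalIdentityStatement := by
  intro K F _ _ _ _ _ y hy hfin
  exact fundamental_identity_full K F y hy hfin

end Fermat.Agent.H84
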